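import Mathlib

/-!
# Row S26, block BETA (helper87): sections of the structure sheaf of an integral scheme

On an integral scheme `Y`, a rational function which lies in the local ring of every point of
an open `U` is (the germ of) a unique section over `U`:  `Γ(Y, U) = ⋂_{x ∈ U} O_{Y,x} ⊆ K(Y)`.
Mathlib only.
-/

set_option autoImplicit false

universe u

open CategoryTheory AlgebraicGeometry TopologicalSpace Opposite

namespace Fermat.Agent.S26.H87

noncomputable section

variable {Y : Scheme.{u}} [IsIntegral Y]

/-- The generic point lies in every nonempty open. -/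
theorem genericPoint_mem_of_mem {U : Y.Opens} {x : Y} (hx : x ∈ U) : genericPoint Y ∈ U :=
  ((genericPoint_spec Y).mem_open_set_iff U.isOpen).mpr ⟨x, trivial, hx⟩

/-- The germ at the generic point of a section, through the local ring at a point. -/
theorem algebraMap_germ {U : Y.Opens} {x : Y} (hx : x ∈ U) (s : Γ(Y, U)) :
    algebraMap (Y.presheaf.stalk x) Y.functionField (Y.presheaf.germ U x hx s) =
      Y.presheaf.germ U (genericPoint Y) (genericPoint_mem_of_mem hx) s := by
  have : Nonempty U := ⟨⟨x, hx⟩⟩
  exact Scheme.algebraMap_germ_eq_germToFunctionField Y hx s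

/-- Sections are determined by their germ at the generic point. -/
theorem eq_of_germ_genericPoint_eq {U : Y.Opens} (hη : genericPoint Y ∈ U) (s s' : Γ(Y, U))
    (h : Y.presheaf.germ U (genericPoint Y) hη s = Y.presheaf.germ U (genericPoint Y) hη s') :
    s = s' :=
  germ_injective_of_isIntegral Y (genericPoint Y) hη h

/-- The germ at the generic point is compatible with restriction. -/
theorem germ_genericPoint_res {U V : Y.Opens} (h : U ≤ V) (hη : genericPoint Y ∈ U)
    (s : Γ(Y, V)) :
    Y.presheaf.germ U (genericPoint Y) hη (Y.presheaf.map (homOfLE h).op s) =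
      Y.presheaf.germ V (genericPoint Y) (h hη) s :=
  Y.presheaf.germ_res_apply (homOfLE h) (genericPoint Y) hη s

/-- **Sections are the rational functions regular at every point.**  If the rational function
`r` lies in the local ring of every point of `U`, it is the germ of a section over `U`. -/
theorem exists_section_of_forall_mem_range (U : Y.Opens) (r : Y.functionField)
    (hr : ∀ x ∈ U, r ∈ Set.range (algebraMap (Y.presheaf.stalk x) Y.functionField)) :
    ∃ s : Γ(Y, U), ∀ hη : genericPoint Y ∈ U, Y.presheaf.germ U (genericPoint Y) hη s = r := by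
  -- local representatives
  have hloc : ∀ x : U, ∃ (V : Y.Opens) (hV : V ≤ U) (hxV : (x : Y) ∈ V) (g : Γ(Y, V)),
      Y.presheaf.germ V (genericPoint Y) (genericPoint_mem_of_mem hxV) g = r := by
    rintro ⟨x, hx⟩
    obtain ⟨a, ha⟩ := hr x hx
    obtain ⟨V, hxV, g, hg⟩ := Y.presheaf.exists_germ_eq a
    refine ⟨V ⊓ U, inf_le_right, ⟨hxV, hx⟩, Y.presheaf.map (homOfLE inf_le_left).op g, ?_⟩
    rw [germ_genericPoint_res, ← algebraMap_germ hxV, hg, ha]
  choose V hVU hxV g hg using hloc
  have hcompat : TopCat.Presheaf.IsCompatible Y.sheaf.1 V g := by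
    intro x y
    have hη : genericPoint Y ∈ V x ⊓ V y :=
      ⟨genericPoint_mem_of_mem (hxV x), genericPoint_mem_of_mem (hxV y)⟩
    apply eq_of_germ_genericPoint_eq hη
    have h1 := germ_genericPoint_res (inf_le_left : V x ⊓ V y ≤ V x) hη (g x)
    have h2 := germ_genericPoint_res (inf_le_right : V x ⊓ V y ≤ V y) hη (g y)
    exact (h1.trans (hg x)).trans ((h2.trans (hg y)).symm)
  have hcover : U ≤ iSup V := fun x hx =>
    Opens.mem_iSup.mpr ⟨⟨x, hx⟩, hxV ⟨x, hx⟩⟩
  obtain ⟨s, hs, -⟩ := Y.sheaf.existsUnique_gluing' V U (fun x => homOfLE (hVU x)) hcover g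
    hcompat
  refine ⟨s, fun hη => ?_⟩
  have h1 := germ_genericPoint_res (hVU ⟨_, hη⟩) (genericPoint_mem_of_mem (hxV ⟨_, hη⟩)) s
  rw [← h1]
  have h2 : Y.presheaf.map (homOfLE (hVU ⟨_, hη⟩)).op s = g ⟨_, hη⟩ := hs ⟨_, hη⟩
  rw [h2, hg]

end

end Fermat.Agent.S26.H87
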