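import Mathlib

/-!
# Row S26, block BETA, leaf B2 (helper87) — part 1: the morphism `U ⟶ 𝔸^σ` of a tuple of sections

`Y` is a scheme over an affine base `Spec R₀`, `U ⊆ Y` an open and `t : σ → Γ(Y, U)` a tuple of
functions on `U`.  We define `tMap f U t : U ⟶ Spec R₀[X_i : i ∈ σ]` (`X_i ↦ t i`), show that it
is a morphism over `Spec R₀`, and prove the valuative pole lemma.  Mathlib only.
-/

set_option autoImplicit false

universe u

open CategoryTheory AlgebraicGeometry TopologicalSpace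

namespace Fermat.Agent.S26.H87

noncomputable section

variable {R₀ : Type u} [CommRing R₀] {Y : Scheme.{u}} (f : Y ⟶ Spec (CommRingCat.of R₀))

/-- The ring homomorphism `R₀ → Γ(Y, U)` induced by the structure morphism `f`. -/
def strHom (U : Y.Opens) : R₀ →+* Γ(Y, U) :=
  ((Y.presheaf.map (homOfLE (le_top : U ≤ ⊤)).op).hom.comp f.appTop.hom).comp
    (Scheme.ΓSpecIso (CommRingCat.of R₀)).inv.hom

/-- Restriction of sections is compatible with the structure maps. -/
theorem map_strHom {U V : Y.Opens} (h : U ≤ V) (a : R₀) :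
    Y.presheaf.map (homOfLE h).op (strHom f V a) = strHom f U a := by
  simp only [strHom, RingHom.comp_apply]
  rw [← CommRingCat.comp_apply, ← Functor.map_comp]
  rfl

variable {σ : Type}

/-- The ring homomorphism `R₀[X_i] → Γ(Y, U)`, `X_i ↦ t i`. -/
def tRingHom (U : Y.Opens) (t : σ → Γ(Y, U)) : MvPolynomial σ R₀ →+* Γ(Y, U) :=
  MvPolynomial.eval₂Hom (strHom f U) t

@[simp] theorem tRingHom_X (U : Y.Opens) (t : σ → Γ(Y, U)) (i : σ) :
    tRingHom f U t (MvPolynomial.X i) = t i := by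
  simp [tRingHom]

@[simp] theorem tRingHom_C (U : Y.Opens) (t : σ → Γ(Y, U)) (a : R₀) :
    tRingHom f U t (MvPolynomial.C a) = strHom f U a := by
  simp [tRingHom]

theorem tRingHom_comp_C (U : Y.Opens) (t : σ → Γ(Y, U)) :
    (tRingHom f U t).comp MvPolynomial.C = strHom f U := by
  ext a
  simp

variable (R₀ σ) in
/-- Affine space over `R₀`, as `Spec R₀[X_i]`, with its structure map. -/
abbrev affStr : Spec (CommRingCat.of (MvPolynomial σ R₀)) ⟶ Spec (CommRingCat.of R₀) :=
  Spec.map (CommRingCat.ofHom (MvPolynomial.C : R₀ →+* MvPolynomial σ R₀))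

/-- The morphism `U ⟶ 𝔸^σ` defined by a tuple of sections `t i ∈ Γ(Y, U)`. -/
def tMap (U : Y.Opens) (t : σ → Γ(Y, U)) :
    U.toScheme ⟶ Spec (CommRingCat.of (MvPolynomial σ R₀)) :=
  U.toSpecΓ ≫ Spec.map (CommRingCat.ofHom (tRingHom f U t))

/-- `Spec` of `strHom` is the structure map of `U`. -/
theorem toSpecΓ_strHom (U : Y.Opens) :
    U.toSpecΓ ≫ Spec.map (CommRingCat.ofHom (strHom f U)) = U.ι ≫ f := by
  have h : CommRingCat.ofHom (strHom f U) =
      (Scheme.ΓSpecIso (CommRingCat.of R₀)).inv ≫ f.appTop ≫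
        Y.presheaf.map (homOfLE (le_top : U ≤ ⊤)).op := rfl
  rw [h, Spec.map_comp, Spec.map_comp, Category.assoc,
    Scheme.Opens.toSpecΓ_SpecMap_presheaf_map_top_assoc,
    ← Scheme.toSpecΓ_naturality_assoc, toSpecΓ_SpecMap_ΓSpecIso_inv, Category.comp_id]

/-- `tMap` is a morphism over `Spec R₀`. -/
theorem tMap_affStr (U : Y.Opens) (t : σ → Γ(Y, U)) :
    tMap f U t ≫ affStr R₀ σ = U.ι ≫ f := by
  rw [tMap, affStr, Category.assoc, ← Spec.map_comp, ← CommRingCat.ofHom_comp,
    tRingHom_comp_C, toSpecΓ_strHom]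

/-- Global sections of `tMap`. -/
theorem tMap_appTop (U : Y.Opens) (t : σ → Γ(Y, U)) :
    (tMap f U t).appTop = (Scheme.ΓSpecIso (CommRingCat.of (MvPolynomial σ R₀))).hom ≫
      CommRingCat.ofHom (tRingHom f U t) ≫ U.topIso.inv := by
  rw [tMap, Scheme.Hom.comp_appTop, Scheme.Opens.toSpecΓ_appTop, ← Category.assoc,
    Scheme.ΓSpecIso_naturality, Category.assoc]

/-! ## The valuative pole lemma -/

theorem appLE_eq_of_eq {X Z : Scheme.{u}} {a b : X ⟶ Z} (h : a = b) (U : Z.Opens) (V : X.Opens)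
    (e : V ≤ a ⁻¹ᵁ U) : a.appLE U V e = b.appLE U V (h ▸ e) := by
  subst h
  rfl

/-- A morphism from the spectrum of a local ring whose closed point lands in an open `W`
factors through `W`. -/
theorem preimage_eq_top_of_closedPoint_mem {X : Scheme.{u}} {R : Type u} [CommRing R]
    [IsLocalRing R] (l : Spec (CommRingCat.of R) ⟶ X) (W : X.Opens)
    (h : l (IsLocalRing.closedPoint R) ∈ W) : l ⁻¹ᵁ W = ⊤ :=
  IsLocalRing.closed_point_mem_iff.mp h

/-- The pulled back function `t_R` is not a unit if `t` vanishes at the image of the closed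
point. -/
theorem not_isUnit_appLE_of_notMem_basicOpen {X : Scheme.{u}} {R : Type u} [CommRing R]
    [IsLocalRing R] (l : Spec (CommRingCat.of R) ⟶ X) (W : X.Opens) (t : Γ(X, W))
    (hW : (⊤ : (Spec (CommRingCat.of R)).Opens) ≤ l ⁻¹ᵁ W)
    (ht : l (IsLocalRing.closedPoint R) ∉ X.basicOpen t) :
    ¬ IsUnit (l.appLE W ⊤ hW t) := by
  intro hu
  apply ht
  have h1 : (Spec (CommRingCat.of R)).basicOpen (l.appLE W ⊤ hW t) = ⊤ :=
    Scheme.basicOpen_of_isUnit _ hu
  have h2 : (Spec (CommRingCat.of R)).basicOpen (l.appLE W ⊤ hW t) ≤ l ⁻¹ᵁ X.basicOpen t := by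
    rw [Scheme.Hom.appLE, CommRingCat.comp_apply, Scheme.basicOpen_res,
      ← Scheme.preimage_basicOpen]
    exact inf_le_right
  have h3 : IsLocalRing.closedPoint R ∈
      (Spec (CommRingCat.of R)).basicOpen (l.appLE W ⊤ hW t) := by
    rw [h1]
    trivial
  exact h2 h3

/-- **Valuative pole lemma.**  Let `l : Spec R ⟶ X` with `R` local, `j : Z ⟶ Spec R` with
`j.appTop` injective, such that `j ≫ l` lands in the open `U`.  Let `s ∈ Γ(X, U)`.  If the
image `P` of the closed point has a neighbourhood `W` with a function `t`, `t(P) = 0`,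
`s · t = 1` on `U ⊓ W`, then the pull back of `s` to `Z` is not the pull back of a function on
`Spec R`. -/
theorem not_exists_appTop_eq_of_pole {X Z : Scheme.{u}} {R : Type u} [CommRing R]
    [IsLocalRing R] (l : Spec (CommRingCat.of R) ⟶ X) (j : Z ⟶ Spec (CommRingCat.of R))
    (hj : Function.Injective j.appTop)
    (U : X.Opens) (hU : (⊤ : Z.Opens) ≤ (j ≫ l) ⁻¹ᵁ U) (s : Γ(X, U))
    (W : X.Opens) (t : Γ(X, W))
    (hPW : l (IsLocalRing.closedPoint R) ∈ W)
    (hPt : l (IsLocalRing.closedPoint R) ∉ X.basicOpen t)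
    (hst : X.presheaf.map (homOfLE (inf_le_left : U ⊓ W ≤ U)).op s *
        X.presheaf.map (homOfLE (inf_le_right : U ⊓ W ≤ W)).op t = 1) :
    ¬ ∃ sR : Γ(Spec (CommRingCat.of R), ⊤), j.appTop sR = (j ≫ l).appLE U ⊤ hU s := by
  rintro ⟨sR, hsR⟩
  have hW : (⊤ : (Spec (CommRingCat.of R)).Opens) ≤ l ⁻¹ᵁ W :=
    (preimage_eq_top_of_closedPoint_mem l W hPW).ge
  have hW' : (⊤ : Z.Opens) ≤ (j ≫ l) ⁻¹ᵁ W := fun y _ => by
    change l (j y) ∈ W
    exact hW (show j y ∈ (⊤ : (Spec (CommRingCat.of R)).Opens) from trivial)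
  have hUW : (⊤ : Z.Opens) ≤ (j ≫ l) ⁻¹ᵁ (U ⊓ W) := fun y hy => ⟨hU hy, hW' hy⟩
  apply not_isUnit_appLE_of_notMem_basicOpen l W t hW hPt
  -- pull back the relation `s * t = 1` to `Z`
  have h1 := congrArg ((j ≫ l).appLE (U ⊓ W) ⊤ hUW) hst
  rw [map_mul, map_one, ← CommRingCat.comp_apply, ← CommRingCat.comp_apply,
    Scheme.Hom.map_appLE, Scheme.Hom.map_appLE] at h1
  have h2 : (j ≫ l).appLE W ⊤ hW' t = j.appTop (l.appLE W ⊤ hW t) := by
    rw [← CommRingCat.comp_apply]
    congr 2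
    have h := Scheme.Hom.appLE_comp_appLE j l W ⊤ ⊤ hW le_top
    rw [← h]
    congr 1
    exact Scheme.Hom.appLE_eq_app j (U := ⊤)
  rw [h2, ← hsR, ← map_mul] at h1
  have h3 : sR * l.appLE W ⊤ hW t = 1 := hj (by rw [h1, map_one])
  exact IsUnit.of_mul_eq_one _ (by rw [mul_comm]; exact h3)

/-- `Spec` of an injective ring homomorphism is an epimorphism with respect to affine targets. -/
theorem eq_of_specMap_comp_eq {R K A : CommRingCat.{u}} (φ : R ⟶ K)
    (hφ : Function.Injective φ.hom) (a b : Spec R ⟶ Spec A)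
    (h : Spec.map φ ≫ a = Spec.map φ ≫ b) : a = b := by
  obtain ⟨α, rfl⟩ := Spec.map_surjective a
  obtain ⟨β, rfl⟩ := Spec.map_surjective b
  rw [← Spec.map_comp, ← Spec.map_comp] at h
  have h' := Spec.map_injective h
  congr 1
  ext x
  apply hφ
  have := congrArg (fun f => f.hom x) h'
  simpa using this

/-- Global sections of `Spec.map φ` are injective if `φ` is. -/
theorem injective_appTop_specMap {R K : CommRingCat.{u}} (φ : R ⟶ K)
    (hφ : Function.Injective φ.hom) : Function.Injective (Spec.map φ).appTop := by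
  have h : (Spec.map φ).appTop = (Scheme.ΓSpecIso R).hom ≫ φ ≫ (Scheme.ΓSpecIso K).inv := by
    rw [← Category.assoc, ← Scheme.ΓSpecIso_naturality, Category.assoc, Iso.hom_inv_id,
      Category.comp_id]
  rw [h]
  intro x y hxy
  simp only [CommRingCat.comp_apply] at hxy
  have h1 := (ConcreteCategory.bijective_of_isIso (Scheme.ΓSpecIso K).inv).1 hxy
  have h2 := hφ h1
  exact (ConcreteCategory.bijective_of_isIso (Scheme.ΓSpecIso R).hom).1 h2

/-- The section `s` pulled back along `U.ι`, in terms of `topIso`. -/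
theorem ι_appLE_self (U : Y.Opens) (e : (⊤ : U.toScheme.Opens) ≤ U.ι ⁻¹ᵁ U) :
    U.ι.appLE U ⊤ e = U.topIso.inv := by
  rw [Scheme.Opens.ι_appLE, Scheme.Opens.topIso_inv]
  rfl

end

end Fermat.Agent.S26.H87
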