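import Mathlib
import Fermat.Agent.S26.H87.TMap

/-!
# Row S26, block BETA, leaf B2 (helper87) — part 2: `tMap` is proper / finite

`f : Y ⟶ Spec R₀` universally closed (e.g. proper), `U ⊆ Y` open, `t : σ → Γ(Y, U)`.
Under the *pole condition* (at every point outside `U` some `t i` has a pole: its inverse
extends to a function vanishing at that point) the morphism `tMap f U t : U ⟶ 𝔸^σ` satisfies
the existence part of the valuative criterion; so it is proper when `f` is proper and `U` is
quasi-compact, and finite when `U` is moreover affine, i.e. `Γ(Y, U)` is a finite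
`R₀[X_i : i ∈ σ]`-module.  Mathlib only.
-/

set_option autoImplicit false
set_option linter.style.haveILetI false

universe u

open CategoryTheory AlgebraicGeometry TopologicalSpace

namespace Fermat.Agent.S26.H87

noncomputable section

variable {R₀ : Type u} [CommRing R₀] {Y : Scheme.{u}} (f : Y ⟶ Spec (CommRingCat.of R₀))
  {σ : Type}

/-- The pole condition: at every point outside `U` one of the functions `t i` has a pole. -/
def PoleCond (U : Y.Opens) (t : σ → Γ(Y, U)) : Prop :=
  ∀ P : Y, P ∉ U → ∃ (i : σ) (W : Y.Opens) (τ : Γ(Y, W)), P ∈ W ∧ P ∉ Y.basicOpen τ ∧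
      Y.presheaf.map (homOfLE (inf_le_left : U ⊓ W ≤ U)).op (t i) *
        Y.presheaf.map (homOfLE (inf_le_right : U ⊓ W ≤ W)).op τ = 1

/-- **Existence part of the valuative criterion** for `tMap` under the pole condition. -/
theorem valuativeCriterion_existence_tMap [UniversallyClosed f] (U : Y.Opens)
    (t : σ → Γ(Y, U)) (hpole : PoleCond U t) : ValuativeCriterion.Existence (tMap f U t) := by
  intro S
  have hc : CommSq (S.i₁ ≫ U.ι) (Spec.map (CommRingCat.ofHom (algebraMap S.R S.K))) f
      (S.i₂ ≫ affStr R₀ σ) := ⟨by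
    rw [Category.assoc, ← tMap_affStr f U t, ← Category.assoc, S.commSq.w, Category.assoc]⟩
  let S' : ValuativeCommSq f := ⟨S.R, S.K, S.i₁ ≫ U.ι, S.i₂ ≫ affStr R₀ σ, hc⟩
  have hex : ValuativeCriterion.Existence f := by
    have h : UniversallyClosed f := inferInstance
    rw [UniversallyClosed.eq_valuativeCriterion] at h
    exact h.1
  obtain ⟨⟨l⟩⟩ := hex S'
  have hl1 : Spec.map (CommRingCat.ofHom (algebraMap S.R S.K)) ≫ l.l = S.i₁ ≫ U.ι := l.fac_left
  set j := Spec.map (CommRingCat.ofHom (algebraMap S.R S.K)) with hjdef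
  have hinj : Function.Injective (CommRingCat.ofHom (algebraMap S.R S.K)).hom :=
    IsFractionRing.injective S.R S.K
  have hj : Function.Injective j.appTop := injective_appTop_specMap _ hinj
  have hU0 : (⊤ : (Spec (CommRingCat.of S.K)).Opens) ≤ (S.i₁ ≫ U.ι) ⁻¹ᵁ U := fun y _ => by
    change U.ι (S.i₁ y) ∈ U
    exact (S.i₁ y).2
  have hU : (⊤ : (Spec (CommRingCat.of S.K)).Opens) ≤ (j ≫ l.l) ⁻¹ᵁ U := hl1 ▸ hU0
  -- the closed point lands in `U`
  have hP : l.l (IsLocalRing.closedPoint S.R) ∈ U := by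
    by_contra hP
    obtain ⟨i, W, τ, hPW, hPt, hst⟩ := hpole _ hP
    refine not_exists_appTop_eq_of_pole l.l j hj U hU (t i) W τ hPW hPt hst
      ⟨S.i₂.appTop ((Scheme.ΓSpecIso (CommRingCat.of (MvPolynomial σ R₀))).inv
        (MvPolynomial.X i)), ?_⟩
    have hιU : (⊤ : U.toScheme.Opens) ≤ U.ι ⁻¹ᵁ U := fun y _ => y.2
    have hL : j.appTop (S.i₂.appTop ((Scheme.ΓSpecIso (CommRingCat.of (MvPolynomial σ R₀))).inv
        (MvPolynomial.X i))) = S.i₁.appTop (U.topIso.inv (t i)) := by
      have h1 : (j ≫ S.i₂).appTop = (S.i₁ ≫ tMap f U t).appTop := by rw [S.commSq.w]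
      rw [Scheme.Hom.comp_appTop, Scheme.Hom.comp_appTop, tMap_appTop] at h1
      have h2 := congrArg (fun φ => φ.hom ((Scheme.ΓSpecIso
        (CommRingCat.of (MvPolynomial σ R₀))).inv (MvPolynomial.X i))) h1
      simp only [Iso.inv_hom_id_apply, CommRingCat.hom_comp, RingHom.comp_apply] at h2
      rw [show (CommRingCat.Hom.hom (CommRingCat.ofHom (tRingHom f U t))) (MvPolynomial.X i) =
        t i from tRingHom_X f U t i] at h2
      exact h2
    have hR : (S.i₁ ≫ U.ι).appLE U ⊤ hU0 (t i) = S.i₁.appTop (U.topIso.inv (t i)) := by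
      have h3 := Scheme.Hom.appLE_comp_appLE S.i₁ U.ι U ⊤ ⊤ hιU le_top
      have h4 : S.i₁.appLE ⊤ ⊤ le_top = S.i₁.appTop := Scheme.Hom.appLE_eq_app S.i₁ (U := ⊤)
      rw [h4, ι_appLE_self] at h3
      rw [← h3, CommRingCat.comp_apply]
    rw [hL, appLE_eq_of_eq hl1 U ⊤ hU]
    exact hR.symm
  have hUtop : l.l ⁻¹ᵁ U = ⊤ := preimage_eq_top_of_closedPoint_mem l.l U hP
  have hrange : Set.range l.l ⊆ Set.range U.ι := by
    rintro _ ⟨x, rfl⟩
    rw [Scheme.Opens.range_ι]
    have : x ∈ l.l ⁻¹ᵁ U := hUtop ▸ trivial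
    exact this
  let l' : Spec (CommRingCat.of S.R) ⟶ U.toScheme := IsOpenImmersion.lift U.ι l.l hrange
  have hl' : l' ≫ U.ι = l.l := IsOpenImmersion.lift_fac _ _ _
  have hfl : j ≫ l' = S.i₁ := by
    rw [← cancel_mono U.ι, Category.assoc, hl', hl1]
  have hfr : l' ≫ tMap f U t = S.i₂ := by
    apply eq_of_specMap_comp_eq (CommRingCat.ofHom (algebraMap S.R S.K)) hinj
    rw [← Category.assoc]
    change (j ≫ l') ≫ _ = j ≫ _
    rw [hfl, S.commSq.w]
  exact CommSq.HasLift.mk' ⟨l', hfl, hfr⟩

theorem locallyOfFiniteType_tMap [LocallyOfFiniteType f] (U : Y.Opens) (t : σ → Γ(Y, U)) :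
    LocallyOfFiniteType (tMap f U t) := by
  haveI : LocallyOfFiniteType (tMap f U t ≫ affStr R₀ σ) := by
    rw [tMap_affStr]
    infer_instance
  exact locallyOfFiniteType_of_comp _ (affStr R₀ σ)

theorem isSeparated_tMap [IsSeparated f] (U : Y.Opens) (t : σ → Γ(Y, U)) :
    IsSeparated (tMap f U t) := by
  haveI : IsSeparated (tMap f U t ≫ affStr R₀ σ) := by
    rw [tMap_affStr]
    infer_instance
  exact IsSeparated.of_comp _ (affStr R₀ σ)

/-- `tMap` is universally closed under the pole condition, if `U` is quasi-compact. -/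
theorem universallyClosed_tMap [UniversallyClosed f] (U : Y.Opens) (hU : IsCompact (U : Set Y))
    (t : σ → Γ(Y, U)) (hpole : PoleCond U t) : UniversallyClosed (tMap f U t) := by
  haveI : CompactSpace U.toScheme := isCompact_iff_compactSpace.mp hU
  haveI : QuasiCompact (tMap f U t) := inferInstance
  exact UniversallyClosed.of_valuativeCriterion _ (valuativeCriterion_existence_tMap f U t hpole)

/-- **`tMap` is proper** under the pole condition, if `U` is quasi-compact. -/
theorem isProper_tMap [IsProper f] (U : Y.Opens) (hU : IsCompact (U : Set Y))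
    (t : σ → Γ(Y, U)) (hpole : PoleCond U t) : IsProper (tMap f U t) := by
  haveI := locallyOfFiniteType_tMap f U t
  haveI := isSeparated_tMap f U t
  haveI := universallyClosed_tMap f U hU t hpole
  exact { }

/-- **`tMap` is finite** under the pole condition, if `U` is affine. -/
theorem isFinite_tMap [IsProper f] (U : Y.Opens) (hU : IsAffineOpen U)
    (t : σ → Γ(Y, U)) (hpole : PoleCond U t) : IsFinite (tMap f U t) := by
  haveI := isProper_tMap f U hU.isCompact t hpole
  haveI : IsAffine U.toScheme := hU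
  rw [IsFinite.iff_isProper_and_isAffineHom]
  exact ⟨inferInstance, inferInstance⟩

/-- **Leaf B2, ring form**: under the pole condition, with `U` affine, `Γ(Y, U)` is finite over
`R₀[X_i : i ∈ σ]` via `X_i ↦ t i`. -/
theorem finite_tRingHom [IsProper f] (U : Y.Opens) (hU : IsAffineOpen U)
    (t : σ → Γ(Y, U)) (hpole : PoleCond U t) : (tRingHom f U t).Finite := by
  have h := isFinite_tMap f U hU t hpole
  haveI : IsIso U.toSpecΓ := by
    rw [← hU.isoSpec_hom]
    infer_instance
  have h2 : IsFinite (Spec.map (CommRingCat.ofHom (tRingHom f U t))) := by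
    have h3 : Spec.map (CommRingCat.ofHom (tRingHom f U t)) =
        inv U.toSpecΓ ≫ tMap f U t := by
      rw [tMap, IsIso.inv_hom_id_assoc]
    rw [h3]
    infer_instance
  rw [IsFinite.SpecMap_iff] at h2
  exact h2

end

end Fermat.Agent.S26.H87
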