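import Mathlib
import Fermat.Agent.S26.SpecDeg
import Fermat.Agent.S26.H87.TProper
import Fermat.Agent.S26.H87.Sections

/-!
# Row S26, block BETA, leaf B2 (helper87) — linear system form

`Y` integral, proper over `Spec R₀`; `u : Fin (g + 1) → K(Y)` a base point free system, and `U` an
affine open with `U = D_0(u) = {x | u 0 generates the system at x}`.  Then the affine
coordinates `u i / u 0` are sections `t i ∈ Γ(Y, U)` and `Γ(Y, U)` is a finite module over
`R₀[X_1, …, X_g]` (`X_i ↦ t i`): the morphism `D_0(u) ⟶ 𝔸^g` is finite.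
-/

set_option autoImplicit false

universe u

open CategoryTheory AlgebraicGeometry TopologicalSpace Opposite

namespace Fermat.Agent.S26.H87

open Fermat.Agent.S26

noncomputable section

variable {Y : Scheme.{u}} [IsIntegral Y] {g : ℕ} (u : Fin (g + 1) → Y.functionField)

/-- On `D_0(u)` the affine coordinates are regular. -/
theorem ratio_mem_range_of_genAt {x : Y} (h : LS.GenAt u x 0) (i : Fin g) :
    LS.ratios u i ∈ Set.range (algebraMap (Y.presheaf.stalk x) Y.functionField) := by
  obtain ⟨h0, hspan⟩ := h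
  have hmem : u i.succ ∈ LS.span u x := Submodule.subset_span ⟨i.succ, rfl⟩
  rw [hspan, Submodule.mem_span_singleton] at hmem
  obtain ⟨a, ha⟩ := hmem
  refine ⟨a, ?_⟩
  rw [LS.ratios, ← ha, Algebra.smul_def, mul_div_assoc, div_self h0, mul_one]

/-- The affine coordinates of a system as sections over (an open inside) `D_0(u)`. -/
theorem exists_sections_of_genAt (U : Y.Opens) (hU : ∀ x, x ∈ U → LS.GenAt u x 0) :
    ∃ t : Fin g → Γ(Y, U), ∀ (i : Fin g) (hη : genericPoint Y ∈ U),
      Y.presheaf.germ U (genericPoint Y) hη (t i) = LS.ratios u i := by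
  have h : ∀ i : Fin g, ∃ s : Γ(Y, U), ∀ hη : genericPoint Y ∈ U,
      Y.presheaf.germ U (genericPoint Y) hη s = LS.ratios u i := fun i =>
    exists_section_of_forall_mem_range U (LS.ratios u i)
      (fun x hx => ratio_mem_range_of_genAt u (hU x hx) i)
  choose t ht using h
  exact ⟨t, ht⟩

/-- An open not containing the generic point is empty. -/
theorem eq_bot_of_genericPoint_notMem (V : Y.Opens) (h : genericPoint Y ∉ V) : V = ⊥ := by
  ext x
  simp only [SetLike.mem_coe, Opens.coe_bot, Set.mem_empty_iff_false, iff_false]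
  exact fun hx => h (genericPoint_mem_of_mem hx)

/-- **The pole condition of a base point free system**: outside `D_0(u)` one of the affine
coordinates `u i / u 0` has a pole. -/
theorem poleCond_of_bpf (hbpf : LS.BPF u) (U : Y.Opens)
    (hU : ∀ x, x ∈ U ↔ LS.GenAt u x 0) (t : Fin g → Γ(Y, U))
    (ht : ∀ (i : Fin g) (hη : genericPoint Y ∈ U),
      Y.presheaf.germ U (genericPoint Y) hη (t i) = LS.ratios u i) : PoleCond U t := by
  intro P hP
  obtain ⟨b, hb0, hb⟩ := hbpf P
  have hbne : b ≠ 0 := by
    rintro rfl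
    exact hP ((hU P).mpr ⟨hb0, hb⟩)
  obtain ⟨i, rfl⟩ := Fin.exists_succ_eq.mpr hbne
  by_cases hη : genericPoint Y ∈ U
  · -- the main case
    have h0 : u 0 ≠ 0 := ((hU _).mp hη).1
    have hmem : u 0 ∈ LS.span u P := Submodule.subset_span ⟨0, rfl⟩
    rw [hb, Submodule.mem_span_singleton] at hmem
    obtain ⟨a, ha⟩ := hmem
    have hau : ¬ IsUnit a := by
      intro hau
      apply hP
      rw [hU]
      refine ⟨h0, ?_⟩
      rw [hb, ← ha]
      exact (Submodule.span_singleton_smul_eq hau (u i.succ)).symm
    obtain ⟨W, hPW, τ, hτ⟩ := Y.presheaf.exists_germ_eq a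
    refine ⟨i, W, τ, hPW, ?_, ?_⟩
    · rw [Scheme.mem_basicOpen _ _ _ hPW, hτ]
      exact hau
    · have hηW : genericPoint Y ∈ W := genericPoint_mem_of_mem hPW
      have hηUW : genericPoint Y ∈ U ⊓ W := ⟨hη, hηW⟩
      apply eq_of_germ_genericPoint_eq hηUW
      rw [map_mul, map_one, germ_genericPoint_res, germ_genericPoint_res, ht i hη,
        ← algebraMap_germ hPW, hτ]
      have ha' : algebraMap (Y.presheaf.stalk P) Y.functionField a * u i.succ = u 0 := by
        rw [← Algebra.smul_def]
        exact ha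
      have ha0 : algebraMap (Y.presheaf.stalk P) Y.functionField a ≠ 0 := by
        intro h
        rw [h, zero_mul] at ha'
        exact h0 ha'.symm
      rw [LS.ratios, ← ha']
      field_simp
  · -- `U` is empty
    have hUbot : U ⊓ (⊤ : Y.Opens) = ⊥ := by
      rw [inf_top_eq]
      exact eq_bot_of_genericPoint_notMem U hη
    refine ⟨i, ⊤, 0, trivial, ?_, ?_⟩
    · rw [Scheme.basicOpen_zero]
      exact fun h => h
    · have hsub : Subsingleton Γ(Y, U ⊓ (⊤ : Y.Opens)) := by
        rw [hUbot]
        infer_instance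
      exact Subsingleton.elim _ _

variable {R₀ : Type u} [CommRing R₀] (f : Y ⟶ Spec (CommRingCat.of R₀))

/-- **Leaf B2 (linear system form).**  `Y` integral and proper over `Spec R₀`, `u` a base point
free system of `g + 1` rational functions, `U = D_0(u)` affine.  Then the affine coordinates
`u i / u 0` are sections `t i` over `U`, and `Γ(Y, U)` is finite over `R₀[X_1, …, X_g]`. -/
theorem exists_finite_of_bpf [IsProper f] (hbpf : LS.BPF u) (U : Y.Opens) (hUaff : IsAffineOpen U)
    (hU : ∀ x, x ∈ U ↔ LS.GenAt u x 0) :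
    ∃ t : Fin g → Γ(Y, U),
      (∀ (i : Fin g) (hη : genericPoint Y ∈ U),
        Y.presheaf.germ U (genericPoint Y) hη (t i) = LS.ratios u i) ∧
      (tRingHom f U t).Finite ∧ IsFinite (tMap f U t) := by
  obtain ⟨t, ht⟩ := exists_sections_of_genAt u U (fun x hx => (hU x).mp hx)
  have hpole := poleCond_of_bpf u hbpf U hU t ht
  exact ⟨t, ht, finite_tRingHom f U hUaff t hpole, isFinite_tMap f U hUaff t hpole⟩

end

end Fermat.Agent.S26.H87
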